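import Fermat.Agent.Lib.FrobDensity.Counts
import Mathlib

/-!
# F2' piece B3 (helper31): an inert prime of the fixed field of `⟨g⟩` has Frobenius `g ^ k`

`L/ℚ` Galois, `g ∈ Gal(L/ℚ)`, `F = L^{⟨g⟩}`, `𝔭 ⊂ 𝓞 F` of norm `p` with residue degree
`[L : F] = orderOf g` in `L`.  Then for a prime `P` of `𝓞 L` over `𝔭` the arithmetic Frobenius of
`P` over `𝔭` lies in `⟨g⟩ = Gal(L/F)`, is congruent to `x ↦ x ^ p` modulo `P`, and has order
`orderOf g` (it generates the Galois group of the residue field extension, of degree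
`orderOf g`); so it is `g ^ k` with `k` prime to `orderOf g`.
-/

set_option autoImplicit false

namespace Fermat.Agent.FrobDensity

open NumberField
open scoped Pointwise

/-- Iterating a Frobenius congruence `σ x ≡ x ^ q (mod P)`. -/
lemma frobGen_pow_congr {S : Type*} [CommRing S] {G : Type*} [Group G] [MulSemiringAction G S]
    (P : Ideal S) (σ : G) (q : ℕ) (h : ∀ x : S, σ • x - x ^ q ∈ P) (j : ℕ) (x : S) :
    (σ ^ j) • x - x ^ (q ^ j) ∈ P := by
  induction j generalizing x with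
  | zero => simp
  | succ j ih =>
    have h1 := ih (σ • x)
    have h2 : (σ • x) ^ (q ^ j) - (x ^ q) ^ (q ^ j) ∈ P :=
      Ideal.mem_of_dvd P (sub_dvd_pow_sub_pow (σ • x) (x ^ q) (q ^ j)) (h x)
    have h3 : (σ ^ (j + 1)) • x - x ^ (q ^ (j + 1)) =
        ((σ ^ j) • (σ • x) - (σ • x) ^ (q ^ j)) + ((σ • x) ^ (q ^ j) - (x ^ q) ^ (q ^ j)) := by
      rw [pow_succ, mul_smul, ← pow_mul, pow_succ' q j]
      ring
    rw [h3]
    exact add_mem h1 h2

/-- In a finite field `k` with `p ^ n` elements, if `y ^ (p ^ m) = y` for all `y` and `m ≠ 0`,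
then `n ≤ m`. -/
lemma frobGen_le_of_pow_eq {k : Type*} [Field k] [Finite k] {p n m : ℕ} (hp : p.Prime)
    (hcard : Nat.card k = p ^ n) (hm : m ≠ 0) (h : ∀ y : k, y ^ (p ^ m) = y) : n ≤ m := by
  classical
  have := Fintype.ofFinite k
  have hdeg := FiniteField.X_pow_card_pow_sub_X_natDegree_eq k hm hp.one_lt
  have hne : (Polynomial.X ^ p ^ m - Polynomial.X : Polynomial k) ≠ 0 :=
    FiniteField.X_pow_card_pow_sub_X_ne_zero k hm hp.one_lt
  have hroots : ∀ y : k, y ∈ (Polynomial.X ^ p ^ m - Polynomial.X : Polynomial k).roots := by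
    intro y
    rw [Polynomial.mem_roots hne]
    simp [h y]
  have h1 : Fintype.card k ≤ p ^ m := by
    calc Fintype.card k = (Finset.univ : Finset k).card := Finset.card_univ.symm
      _ ≤ (Polynomial.X ^ p ^ m - Polynomial.X : Polynomial k).roots.toFinset.card :=
          Finset.card_le_card fun y _ => Multiset.mem_toFinset.mpr (hroots y)
      _ ≤ Multiset.card (Polynomial.X ^ p ^ m - Polynomial.X : Polynomial k).roots :=
          Multiset.toFinset_card_le _
      _ ≤ (Polynomial.X ^ p ^ m - Polynomial.X : Polynomial k).natDegree :=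
          Polynomial.card_roots' _
      _ = p ^ m := hdeg
  rw [← Nat.card_eq_fintype_card, hcard] at h1
  exact (Nat.pow_le_pow_iff_right hp.one_lt).mp h1

/-- **B3**: an inert degree-one prime of the fixed field of `⟨g⟩` has arithmetic Frobenius
`g ^ k` with `k` prime to the order of `g`. -/
theorem exists_isArithFrobAt_pow_of_inert (L : Type*) [Field L] [NumberField L] [IsGalois ℚ L]
    (g : Gal(L/ℚ)) (p : ℕ) (hp : p.Prime)
    (𝔭 : Ideal (𝓞 (IntermediateField.fixedField (Subgroup.zpowers g))))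
    (hN : Ideal.absNorm 𝔭 = p) (hf : 𝔭.inertiaDegIn (𝓞 L) = orderOf g)
    (_hunr : ∀ P : Ideal (𝓞 L), P.IsPrime → (p : 𝓞 L) ∈ P → P.ramificationIdx ℤ = 1) :
    ∃ (P : Ideal (𝓞 L)) (k : ℕ), P.IsPrime ∧ (p : 𝓞 L) ∈ P ∧ k.Coprime (orderOf g) ∧
      ∀ x : 𝓞 L, (g ^ k) • x - x ^ p ∈ P := by
  classical
  have hG1 : IsGaloisGroup (Subgroup.zpowers g)
      (IntermediateField.fixedField (Subgroup.zpowers g)) L :=
    IsGaloisGroup.subgroup Gal(L/ℚ) ℚ L (Subgroup.zpowers g)
  have hG2 : IsGaloisGroup (Subgroup.zpowers g)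
      (𝓞 (IntermediateField.fixedField (Subgroup.zpowers g))) (𝓞 L) :=
    IsGaloisGroup.of_isFractionRing (Subgroup.zpowers g)
      (𝓞 (IntermediateField.fixedField (Subgroup.zpowers g))) (𝓞 L)
      (IntermediateField.fixedField (Subgroup.zpowers g)) L
  have hinv := hG2.isInvariant
  have hcomm := hG2.commutes
  -- `𝔭` is a non-zero prime
  have h𝔭prime : 𝔭.IsPrime :=
    Ideal.isPrime_of_irreducible_absNorm (by rw [hN]; exact hp)
  have h𝔭ne : 𝔭 ≠ ⊥ := by
    rintro rfl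
    rw [Ideal.absNorm_bot] at hN
    exact hp.ne_zero hN.symm
  have h𝔭max : 𝔭.IsMaximal := h𝔭prime.isMaximal h𝔭ne
  -- a prime `P` of `𝓞 L` over `𝔭`
  obtain ⟨⟨P, hPprime, hPover⟩⟩ := (inferInstance : Nonempty (Ideal.primesOver 𝔭 (𝓞 L)))
  have hpmem𝔭 : ((p : ℕ) : 𝓞 (IntermediateField.fixedField (Subgroup.zpowers g))) ∈ 𝔭 := by
    have := Ideal.absNorm_mem 𝔭
    rwa [hN] at this
  have hpP : (p : 𝓞 L) ∈ P := by
    have h1 : algebraMap (𝓞 (IntermediateField.fixedField (Subgroup.zpowers g))) (𝓞 L)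
        ((p : ℕ) : 𝓞 (IntermediateField.fixedField (Subgroup.zpowers g))) ∈ P := by
      have h2 := hPover.over
      rw [h2] at hpmem𝔭
      exact hpmem𝔭
    simpa using h1
  have hPne : P ≠ ⊥ := by
    rintro rfl
    have : (p : 𝓞 L) = 0 := by simpa using hpP
    exact hp.ne_zero (by exact_mod_cast this)
  have hPmax : P.IsMaximal := hPprime.isMaximal hPne
  have hfin : Finite (𝓞 L ⧸ P) := Ideal.finiteQuotientOfFreeOfNeBot P hPne
  -- the Frobenius
  obtain ⟨σ, hσ⟩ := IsArithFrobAt.exists_of_isInvariant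
    (𝓞 (IntermediateField.fixedField (Subgroup.zpowers g))) (Subgroup.zpowers g) P
  have hunder : P.under (𝓞 (IntermediateField.fixedField (Subgroup.zpowers g))) = 𝔭 :=
    hPover.over.symm
  have hcard : Nat.card (𝓞 (IntermediateField.fixedField (Subgroup.zpowers g)) ⧸
      P.under (𝓞 (IntermediateField.fixedField (Subgroup.zpowers g)))) = p := by
    rw [hunder, ← hN, Ideal.absNorm_apply, Submodule.cardQuot_apply]
  have hσ' : ∀ x : 𝓞 L, (σ : Gal(L/ℚ)) • x - x ^ p ∈ P := by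
    intro x
    have := hσ x
    rw [hcard] at this
    exact this
  -- the residue field has `p ^ orderOf g` elements
  have hcardP : Nat.card (𝓞 L ⧸ P) = p ^ orderOf g := by
    have h1 := Ideal.absNorm_eq_pow_inertiaDeg'_of_liesOver P 𝔭 h𝔭prime h𝔭ne
    rw [Ideal.inertiaDeg'_eq_inertiaDeg 𝔭 P,
      ← Ideal.inertiaDegIn_eq_inertiaDeg 𝔭 P (Subgroup.zpowers g), hf, hN] at h1
    rw [← h1, Ideal.absNorm_apply, Submodule.cardQuot_apply]
  -- the order of `σ`
  have hm0 : orderOf (σ : Gal(L/ℚ)) ≠ 0 := (orderOf_pos _).ne'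
  have hdvd : orderOf (σ : Gal(L/ℚ)) ∣ orderOf g := orderOf_dvd_of_mem_zpowers σ.2
  have hle : orderOf g ≤ orderOf (σ : Gal(L/ℚ)) := by
    let _ : Field (𝓞 L ⧸ P) := Ideal.Quotient.field P
    refine frobGen_le_of_pow_eq (k := 𝓞 L ⧸ P) hp hcardP hm0 fun y => ?_
    obtain ⟨x, rfl⟩ := Ideal.Quotient.mk_surjective y
    have h1 := frobGen_pow_congr P (σ : Gal(L/ℚ)) p hσ' (orderOf (σ : Gal(L/ℚ))) x
    rw [pow_orderOf_eq_one, one_smul] at h1
    rw [← map_pow]
    exact ((Ideal.Quotient.eq).mpr h1).symm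
  have hord : orderOf (σ : Gal(L/ℚ)) = orderOf g :=
    le_antisymm (Nat.le_of_dvd (orderOf_pos g) hdvd) hle
  -- `σ = g ^ k`
  obtain ⟨k, hk⟩ : ∃ k : ℕ, g ^ k = (σ : Gal(L/ℚ)) :=
    (Submonoid.mem_powers_iff _ _).mp (mem_powers_iff_mem_zpowers.mpr σ.2)
  refine ⟨P, k, hPprime, hpP, ?_, fun x => ?_⟩
  · have h1 : orderOf (g ^ k) = orderOf g / Nat.gcd (orderOf g) k :=
      orderOf_pow g
    rw [hk, hord] at h1
    have h2 : Nat.gcd (orderOf g) k = 1 := by
      have hpos := orderOf_pos g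
      have hgpos : 0 < Nat.gcd (orderOf g) k := Nat.gcd_pos_of_pos_left _ hpos
      have h3 := Nat.div_mul_cancel (Nat.gcd_dvd_left (orderOf g) k)
      rw [← h1] at h3
      have h4 : orderOf g * Nat.gcd (orderOf g) k = orderOf g * 1 := by rw [h3, mul_one]
      exact Nat.eq_of_mul_eq_mul_left hpos h4
    rw [Nat.coprime_comm]
    exact h2
  · rw [hk]; exact hσ' x

end Fermat.Agent.FrobDensity
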