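import Fermat.Agent.Lib.FrobDensity.Cyclic
import Fermat.Agent.Lib.FrobDensity.FrobGen
import Fermat.Agent.Lib.FrobDensity.Bridge

set_option autoImplicit false

/-!
# The Frobenius density theorem (existence form) for `Gal(ℚ̄/ℚ)`
-/

namespace Fermat.Agent.FrobDensity

open NumberField IsDedekindDomain
open scoped Pointwise

attribute [local instance] FractionRing.liftAlgebra FractionRing.isScalarTower_liftAlgebra

section ramZ

variable (L : Type*) [Field L] [NumberField L]

/-- Only finitely many rational primes ramify in `L` (ramification index over `ℤ`). -/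
theorem finite_ramified_int :
    {p : ℕ | p.Prime ∧ ∃ P : Ideal (𝓞 L), P.IsPrime ∧ (p : 𝓞 L) ∈ P ∧
      P.ramificationIdx ℤ ≠ 1}.Finite := by
  have hD : differentIdeal ℤ (𝓞 L) ≠ ⊥ := differentIdeal_ne_bot
  have hfin := Ideal.finite_factors hD
  refine (hfin.image ratPrime).subset ?_
  rintro p ⟨hp, P, hP, hpP, hram⟩
  have hPbot : P ≠ ⊥ := by
    rintro rfl
    exact natCast_ne_zero_of_prime L hp (by simpa using hpP)
  refine ⟨⟨P, hP, hPbot⟩, ?_, ratPrime_eq_of_mem L hp ⟨P, hP, hPbot⟩ hpP⟩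
  show P ∣ differentIdeal ℤ (𝓞 L)
  rw [dvd_differentIdeal_iff]
  intro hunr
  exact hram (Ideal.ramificationIdx_eq_one_iff.mpr hunr)

end ramZ

section final

/-- `Gal(L/L^⟨g⟩)` is cyclic. -/
theorem isCyclic_gal_fixedField_zpowers {K L : Type*} [Field K] [Field L] [Algebra K L]
    [FiniteDimensional K L] (g : Gal(L/K)) :
    IsCyclic Gal(L/(IntermediateField.fixedField (Subgroup.zpowers g))) := by
  have h : (IntermediateField.fixedField (Subgroup.zpowers g)).fixingSubgroup =
      Subgroup.zpowers g := IntermediateField.fixingSubgroup_fixedField _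
  have h1 : IsCyclic (IntermediateField.fixedField (Subgroup.zpowers g)).fixingSubgroup := by
    rw [h]
    infer_instance
  exact isCyclic_of_surjective
    (IntermediateField.fixingSubgroupEquiv
      (IntermediateField.fixedField (Subgroup.zpowers g))).toMonoidHom
    (IntermediateField.fixingSubgroupEquiv _).surjective

/-- **Frobenius density theorem, existence form.** Let `L/ℚ` be a finite Galois extension inside
`ℚ̄`, `g ∈ Gal(L/ℚ)` and `S` a finite set of primes.  There are a prime `ℓ ∉ S`, a place `A` of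
`ℚ̄` over `ℓ`, a Frobenius element `τ` at `A` and an exponent `k` prime to the order of `g` such
that `τ` restricts to `g ^ k` on `L`. -/
theorem frobenius_density (L : IntermediateField ℚ (AlgebraicClosure ℚ)) [FiniteDimensional ℚ L]
    [IsGalois ℚ L] (g : L ≃ₐ[ℚ] L) (S : Finset ℕ) :
    ∃ (ℓ : ℕ) (A : ValuationSubring (AlgebraicClosure ℚ))
      (τ : AlgebraicClosure ℚ ≃ₐ[ℚ] AlgebraicClosure ℚ) (k : ℕ),
      ℓ.Prime ∧ ℓ ∉ S ∧ A.LiesOverPrime ℓ ∧ A.IsFrobeniusAt τ ℓ ∧ k.Coprime (orderOf g) ∧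
      AlgEquiv.restrictNormalHom L τ = g ^ k := by
  classical
  have : NumberField L := ⟨⟩
  have hcyc := isCyclic_gal_fixedField_zpowers g
  -- the bad primes
  have hS1 : {p : Nat.Primes | (p : ℕ) ∈ S}.Finite := by
    refine Set.Finite.of_finite_image (f := fun p : Nat.Primes => (p : ℕ))
      (S.finite_toSet.subset ?_) (fun p _ q _ hpq => Subtype.ext hpq)
    rintro _ ⟨p, hp, rfl⟩
    exact hp
  have hS2 : {p : Nat.Primes | ∃ P : Ideal (𝓞 L), P.IsPrime ∧ ((p : ℕ) : 𝓞 L) ∈ P ∧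
      P.ramificationIdx ℤ ≠ 1}.Finite := by
    refine Set.Finite.of_finite_image (f := fun p : Nat.Primes => (p : ℕ))
      ((finite_ramified_int L).subset ?_) (fun p _ q _ hpq => Subtype.ext hpq)
    rintro _ ⟨p, hp, rfl⟩
    exact ⟨p.2, hp⟩
  obtain ⟨p, 𝔭, hpS, hN, hf⟩ :=
    exists_inert (IntermediateField.fixedField (Subgroup.zpowers g)) L _ (hS1.union hS2)
  have hpS1 : (p : ℕ) ∉ S := fun h => hpS (Or.inl h)
  have hunr : ∀ P : Ideal (𝓞 L), P.IsPrime → ((p : ℕ) : 𝓞 L) ∈ P → P.ramificationIdx ℤ = 1 := by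
    intro P hP hpP
    by_contra h
    exact hpS (Or.inr ⟨P, hP, hpP, h⟩)
  have hf' : 𝔭.inertiaDegIn (𝓞 L) = orderOf g := by
    rw [hf, IntermediateField.finrank_fixedField_eq_card, Nat.card_zpowers]
  obtain ⟨P, k, hP, hpP, hk, hfrob⟩ :=
    exists_isArithFrobAt_pow_of_inert L g p p.2 𝔭 hN hf' hunr
  obtain ⟨A, τ, hA, -, hτ, hres⟩ :=
    Fermat.Agent.FrobBridge.exists_frobenius_of_prime L P p p.2 hpP (g ^ k) (by
      intro x
      refine ⟨(g ^ k) • x - x ^ (p : ℕ), hfrob x, ?_⟩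
      have h1 : algebraMap (𝓞 L) L ((g ^ k) • x - x ^ (p : ℕ)) =
          algebraMap (𝓞 L) L ((g ^ k) • x) - (algebraMap (𝓞 L) L x) ^ (p : ℕ) := by
        rw [map_sub, map_pow]
      exact h1.symm)
  exact ⟨p, A, τ, k, p.2, hpS1, hA, hτ, hk, hres⟩

end final

end Fermat.Agent.FrobDensity
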