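import Mathlib

/-!
# Euler product over the primes of a Dedekind domain (sieve form)

For a Dedekind domain `R` and a nonnegative multiplicative summable weight `w` on ideals with
`w ⊥ = 0`, `w ⊤ = 1`, `w 𝔭 < 1`, the product of `(1 - w 𝔭)⁻¹` over the height one primes converges
to `∑' I, w I`.  (helper59, foundation F2'.)
-/

namespace Fermat.Agent.FrobDensity

open IsDedekindDomain Filter Topology

section Sieve

set_option linter.unusedSectionVars false

variable {R : Type*} [CommRing R] [IsDedekindDomain R]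

/-- The nonzero ideals not divisible by any prime of `T`. -/
def sieveSet (T : Finset (HeightOneSpectrum R)) : Set (Ideal R) :=
  {I | I ≠ ⊥ ∧ ∀ 𝔭 ∈ T, ¬ I ≤ 𝔭.asIdeal}

lemma top_mem_sieveSet (T : Finset (HeightOneSpectrum R)) : (⊤ : Ideal R) ∈ sieveSet T := by
  refine ⟨top_ne_bot, fun 𝔭 _ h => ?_⟩
  exact 𝔭.isPrime.ne_top (top_le_iff.mp h)

lemma sieveSet_insert_subset [DecidableEq (HeightOneSpectrum R)]
    (T : Finset (HeightOneSpectrum R)) (𝔭 : HeightOneSpectrum R) :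
    sieveSet (insert 𝔭 T) ⊆ sieveSet T :=
  fun _ hI => ⟨hI.1, fun 𝔮 h𝔮 => hI.2 𝔮 (Finset.mem_insert_of_mem h𝔮)⟩

lemma sieveSet_eq_union [DecidableEq (HeightOneSpectrum R)]
    (T : Finset (HeightOneSpectrum R)) (𝔭 : HeightOneSpectrum R) (h𝔭 : 𝔭 ∉ T) :
    sieveSet T = sieveSet (insert 𝔭 T) ∪ (fun J => 𝔭.asIdeal * J) '' sieveSet T := by
  ext I
  constructor
  · intro hI
    by_cases hle : I ≤ 𝔭.asIdeal
    · right
      obtain ⟨J, rfl⟩ := Ideal.dvd_iff_le.mpr hle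
      refine ⟨J, ⟨?_, fun 𝔮 h𝔮 hJ => ?_⟩, rfl⟩
      · rintro rfl
        exact hI.1 (by simp)
      · exact hI.2 𝔮 h𝔮 (le_trans Ideal.mul_le_right hJ)
    · left
      refine ⟨hI.1, fun 𝔮 h𝔮 => ?_⟩
      rcases Finset.mem_insert.mp h𝔮 with rfl | h
      · exact hle
      · exact hI.2 𝔮 h
  · rintro (hI | ⟨J, hJ, rfl⟩)
    · exact sieveSet_insert_subset T 𝔭 hI
    · refine ⟨mul_ne_zero 𝔭.ne_bot hJ.1, fun 𝔮 h𝔮 hle => ?_⟩
      rcases (𝔮.isPrime.mul_le).mp hle with h | h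
      · have : 𝔭.asIdeal = 𝔮.asIdeal := 𝔭.isMaximal.eq_of_le 𝔮.isPrime.ne_top h
        have h2 : 𝔭 = 𝔮 := HeightOneSpectrum.ext this
        exact h𝔭 (h2 ▸ h𝔮)
      · exact hJ.2 𝔮 h𝔮 h

lemma sieveSet_disjoint [DecidableEq (HeightOneSpectrum R)]
    (T : Finset (HeightOneSpectrum R)) (𝔭 : HeightOneSpectrum R) :
    Disjoint (sieveSet (insert 𝔭 T)) ((fun J => 𝔭.asIdeal * J) '' sieveSet T) := by
  rw [Set.disjoint_left]
  rintro I hI ⟨J, _, rfl⟩
  exact hI.2 𝔭 (Finset.mem_insert_self _ _) Ideal.mul_le_left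

variable (w : Ideal R → ℝ)

/-- The sieved sum. -/
noncomputable def sieveSum (T : Finset (HeightOneSpectrum R)) : ℝ :=
  ∑' I : Ideal R, (sieveSet T).indicator w I

variable {w}

lemma sieveSum_insert [DecidableEq (HeightOneSpectrum R)]
    (hmul : ∀ I J, w (I * J) = w I * w J) (hsum : Summable w)
    (T : Finset (HeightOneSpectrum R)) (𝔭 : HeightOneSpectrum R) (h𝔭 : 𝔭 ∉ T) :
    sieveSum w (insert 𝔭 T) = (1 - w 𝔭.asIdeal) * sieveSum w T := by
  have hinj : Function.Injective (fun J : Ideal R => 𝔭.asIdeal * J) :=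
    mul_right_injective₀ 𝔭.ne_bot
  have h1 : sieveSum w T = sieveSum w (insert 𝔭 T) +
      ∑' I : Ideal R, ((fun J => 𝔭.asIdeal * J) '' sieveSet T).indicator w I := by
    unfold sieveSum
    rw [← Summable.tsum_add (hsum.indicator _) (hsum.indicator _)]
    congr 1
    ext I
    conv_lhs => rw [sieveSet_eq_union T 𝔭 h𝔭]
    exact congrFun (Set.indicator_union_of_disjoint (sieveSet_disjoint T 𝔭) w) I
  have h2 : ∑' I : Ideal R, ((fun J => 𝔭.asIdeal * J) '' sieveSet T).indicator w I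
      = w 𝔭.asIdeal * sieveSum w T := by
    unfold sieveSum
    rw [← tsum_subtype, tsum_image w hinj.injOn, ← tsum_subtype, ← tsum_mul_left]
    congr 1
    ext J
    exact hmul _ _
  rw [h2] at h1
  linarith

lemma sieveSum_empty (hbot : w ⊥ = 0) : sieveSum w ∅ = ∑' I, w I := by
  unfold sieveSum
  congr 1
  ext I
  by_cases hI : I = ⊥
  · subst hI
    simp [sieveSet, hbot]
  · rw [Set.indicator_of_mem]
    exact ⟨hI, by simp⟩

lemma sieveSum_eq_prod [DecidableEq (HeightOneSpectrum R)]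
    (hmul : ∀ I J, w (I * J) = w I * w J) (hbot : w ⊥ = 0) (hsum : Summable w)
    (T : Finset (HeightOneSpectrum R)) :
    sieveSum w T = (∏ 𝔭 ∈ T, (1 - w 𝔭.asIdeal)) * ∑' I, w I := by
  induction T using Finset.induction_on with
  | empty => simp [sieveSum_empty hbot]
  | insert 𝔭 T h𝔭 ih =>
    rw [sieveSum_insert hmul hsum T 𝔭 h𝔭, ih, Finset.prod_insert h𝔭]
    ring

lemma one_le_sieveSum (hnn : ∀ I, 0 ≤ w I) (htop : w ⊤ = 1) (hsum : Summable w)
    (T : Finset (HeightOneSpectrum R)) : 1 ≤ sieveSum w T := by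
  unfold sieveSum
  have h := (hsum.indicator (sieveSet T)).le_tsum (⊤ : Ideal R)
    (fun J _ => Set.indicator_nonneg (fun I _ => hnn I) J)
  rwa [Set.indicator_of_mem (top_mem_sieveSet T), htop] at h

lemma exists_finset_prime_cover (F : Finset (Ideal R)) :
    ∃ T : Finset (HeightOneSpectrum R), ∀ I ∈ F, I ≠ ⊥ → I ≠ ⊤ → ∃ 𝔭 ∈ T, I ≤ 𝔭.asIdeal := by
  classical
  have key : ∀ I : Ideal R, ∃ T : Finset (HeightOneSpectrum R),
      I ≠ ⊥ → I ≠ ⊤ → ∃ 𝔭 ∈ T, I ≤ 𝔭.asIdeal := by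
    intro I
    by_cases h : I ≠ ⊥ ∧ I ≠ ⊤
    · obtain ⟨M, hM, hIM⟩ := Ideal.exists_le_maximal I h.2
      have hMbot : M ≠ ⊥ := fun hb => h.1 (le_bot_iff.mp (hb ▸ hIM))
      exact ⟨{⟨M, hM.isPrime, hMbot⟩}, fun _ _ => ⟨_, Finset.mem_singleton_self _, hIM⟩⟩
    · exact ⟨∅, fun h1 h2 => absurd ⟨h1, h2⟩ h⟩
  choose Tf hTf using key
  refine ⟨F.biUnion Tf, fun I hI h1 h2 => ?_⟩
  obtain ⟨𝔭, h𝔭, hle⟩ := hTf I h1 h2
  exact ⟨𝔭, Finset.mem_biUnion.mpr ⟨I, hI, h𝔭⟩, hle⟩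

lemma sieveSum_anti [DecidableEq (HeightOneSpectrum R)]
    (hnn : ∀ I, 0 ≤ w I) (hsum : Summable w)
    {T T' : Finset (HeightOneSpectrum R)} (h : T ⊆ T') : sieveSum w T' ≤ sieveSum w T := by
  unfold sieveSum
  refine Summable.tsum_le_tsum (fun I => ?_) (hsum.indicator _) (hsum.indicator _)
  refine Set.indicator_le_indicator_of_subset ?_ (fun I => hnn I) I
  exact fun I hI => ⟨hI.1, fun 𝔮 h𝔮 => hI.2 𝔮 (h h𝔮)⟩

lemma tendsto_sieveSum (hnn : ∀ I, 0 ≤ w I) (htop : w ⊤ = 1) (hsum : Summable w) :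
    Tendsto (sieveSum w) atTop (𝓝 1) := by
  classical
  rw [Metric.tendsto_atTop]
  intro ε hε
  have htail := tendsto_tsum_compl_atTop_zero w
  rw [Metric.tendsto_atTop] at htail
  obtain ⟨F, hF⟩ := htail ε hε
  have hF' := hF F le_rfl
  rw [Real.dist_eq, sub_zero] at hF'
  obtain ⟨T₀, hT₀⟩ := exists_finset_prime_cover F
  refine ⟨T₀, fun T hT => ?_⟩
  rw [Real.dist_eq, abs_of_nonneg (sub_nonneg.mpr (one_le_sieveSum hnn htop hsum T))]
  have hle : sieveSum w T ≤ 1 + ∑' a : {x // x ∉ F}, w a := by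
    have hs1 : Summable (({⊤} : Set (Ideal R)).indicator w) := hsum.indicator _
    have hs2 : Summable (((F : Set (Ideal R))ᶜ).indicator w) := hsum.indicator _
    have e1 : ∑' I, ({⊤} : Set (Ideal R)).indicator w I = 1 := by
      rw [← tsum_subtype, tsum_singleton (⊤ : Ideal R) w, htop]
    have e2 : ∑' I, ((F : Set (Ideal R))ᶜ).indicator w I = ∑' a : {x // x ∉ F}, w a := by
      rw [← tsum_subtype]
      rfl
    rw [← e1, ← e2, ← Summable.tsum_add hs1 hs2]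
    unfold sieveSum
    refine Summable.tsum_le_tsum (fun I => ?_) (hsum.indicator _) (hs1.add hs2)
    by_cases hI : I ∈ sieveSet T
    · rw [Set.indicator_of_mem hI]
      by_cases htopI : I = ⊤
      · subst htopI
        have : (0:ℝ) ≤ ((F : Set (Ideal R))ᶜ).indicator w ⊤ :=
          Set.indicator_nonneg (fun I _ => hnn I) _
        simp only [Set.mem_singleton_iff, Set.indicator_of_mem]
        linarith
      · have hIF : I ∉ F := by
          intro hIF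
          obtain ⟨𝔭, h𝔭, hle⟩ := hT₀ I hIF hI.1 htopI
          exact hI.2 𝔭 (hT h𝔭) hle
        have : (0:ℝ) ≤ ({⊤} : Set (Ideal R)).indicator w I :=
          Set.indicator_nonneg (fun I _ => hnn I) _
        rw [Set.indicator_of_mem (show I ∈ ((F : Set (Ideal R))ᶜ) from hIF)]
        linarith
    · rw [Set.indicator_of_notMem hI]
      exact add_nonneg (Set.indicator_nonneg (fun I _ => hnn I) _)
        (Set.indicator_nonneg (fun I _ => hnn I) _)
  have habs := le_abs_self (∑' a : {x // x ∉ F}, w a)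
  linarith

/-- Partial Euler products are bounded by the full sum. -/
theorem prod_one_sub_inv_le_tsum (hnn : ∀ I, 0 ≤ w I) (htop : w ⊤ = 1) (hbot : w ⊥ = 0)
    (hmul : ∀ I J, w (I * J) = w I * w J) (hsum : Summable w)
    (hlt : ∀ 𝔭 : HeightOneSpectrum R, w 𝔭.asIdeal < 1) (T : Finset (HeightOneSpectrum R)) :
    ∏ 𝔭 ∈ T, (1 - w 𝔭.asIdeal)⁻¹ ≤ ∑' I, w I := by
  classical
  have hpos : 0 < ∏ 𝔭 ∈ T, (1 - w 𝔭.asIdeal) :=
    Finset.prod_pos (fun 𝔭 _ => sub_pos.mpr (hlt 𝔭))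
  have h1 := one_le_sieveSum hnn htop hsum T
  rw [sieveSum_eq_prod hmul hbot hsum T] at h1
  rw [Finset.prod_inv_distrib, inv_le_iff_one_le_mul₀ hpos]
  linarith

/-- **Euler product** over the height one primes of a Dedekind domain. -/
theorem hasProd_one_sub_inv (hnn : ∀ I, 0 ≤ w I) (htop : w ⊤ = 1) (hbot : w ⊥ = 0)
    (hmul : ∀ I J, w (I * J) = w I * w J) (hsum : Summable w)
    (hlt : ∀ 𝔭 : HeightOneSpectrum R, w 𝔭.asIdeal < 1) :
    HasProd (fun 𝔭 : HeightOneSpectrum R => (1 - w 𝔭.asIdeal)⁻¹) (∑' I, w I) := by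
  classical
  unfold HasProd
  have hne : ∀ T : Finset (HeightOneSpectrum R), (∏ 𝔭 ∈ T, (1 - w 𝔭.asIdeal)) ≠ 0 :=
    fun T => Finset.prod_ne_zero_iff.mpr (fun 𝔭 _ => (sub_pos.mpr (hlt 𝔭)).ne')
  have hpos : 0 < ∑' I, w I :=
    lt_of_lt_of_le one_pos (by
      have := hsum.le_tsum (⊤ : Ideal R) (fun J _ => hnn J)
      rwa [htop] at this)
  have heq : ∀ T : Finset (HeightOneSpectrum R),
      (∏ 𝔭 ∈ T, (1 - w 𝔭.asIdeal)⁻¹) = (∑' I, w I) / sieveSum w T := by
    intro T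
    rw [sieveSum_eq_prod hmul hbot hsum T, Finset.prod_inv_distrib]
    field_simp
  have h1 : Tendsto (fun T => (∑' I, w I) / sieveSum w T) atTop (𝓝 ((∑' I, w I) / 1)) :=
    tendsto_const_nhds.div (tendsto_sieveSum hnn htop hsum) one_ne_zero
  rw [div_one] at h1
  simpa only [heq, SummationFilter.unconditional_filter] using h1

end Sieve

end Fermat.Agent.FrobDensity
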