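import Mathlib

set_option autoImplicit false

/-!
# Logarithmic density of weights on the rational primes

Interface file for the Frobenius density theorem (weak Chebotarev).  A bounded weight
`w : Nat.Primes → ℝ` has logarithmic density `c` when
`∑_p w(p) p^{-s} = c · log (1/(s-1)) + O(1)` as `s → 1⁺`.
-/

namespace Fermat.Agent.FrobDensity

open NumberField

/-- The number of ideals of `𝓞 K` of norm `n`: the Dirichlet coefficient of the Dedekind zeta
function of `K`. -/
noncomputable def idealCount (K : Type*) [Field K] [NumberField K] (n : ℕ) : ℕ :=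
  Nat.card {I : Ideal (𝓞 K) // Ideal.absNorm I = n}

/-- `w` (a bounded weight on rational primes) has logarithmic density `c`:
`∑_p w(p) p^{-s} = c log (1/(s-1)) + O(1)` as `s → 1⁺`. -/
def HasLogDensity (w : Nat.Primes → ℝ) (c : ℝ) : Prop :=
  (∃ B : ℝ, ∀ p, |w p| ≤ B) ∧
  ∃ C δ : ℝ, 0 < δ ∧ ∀ s : ℝ, 1 < s → s < 1 + δ →
    |∑' p : Nat.Primes, w p * (p : ℝ) ^ (-s) - c * Real.log (1 / (s - 1))| ≤ C

theorem summable_primes_rpow_neg {s : ℝ} (hs : 1 < s) :
    Summable fun p : Nat.Primes => ((p : ℕ) : ℝ) ^ (-s) :=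
  Nat.Primes.summable_rpow.mpr (by linarith)

theorem summable_weight_mul_rpow {w : Nat.Primes → ℝ} (hw : ∃ B : ℝ, ∀ p, |w p| ≤ B) {s : ℝ}
    (hs : 1 < s) : Summable fun p : Nat.Primes => w p * ((p : ℕ) : ℝ) ^ (-s) := by
  obtain ⟨B, hB⟩ := hw
  refine Summable.of_norm_bounded ((summable_primes_rpow_neg hs).mul_left B) fun p => ?_
  rw [norm_mul, Real.norm_eq_abs, Real.norm_eq_abs,
    abs_of_nonneg (Real.rpow_nonneg (Nat.cast_nonneg _) _)]
  exact mul_le_mul_of_nonneg_right (hB p) (Real.rpow_nonneg (Nat.cast_nonneg _) _)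

theorem HasLogDensity.summable {w : Nat.Primes → ℝ} {c : ℝ} (h : HasLogDensity w c) {s : ℝ}
    (hs : 1 < s) : Summable fun p : Nat.Primes => w p * ((p : ℕ) : ℝ) ^ (-s) :=
  summable_weight_mul_rpow h.1 hs

theorem HasLogDensity.add {w w' : Nat.Primes → ℝ} {c c' : ℝ} (h : HasLogDensity w c)
    (h' : HasLogDensity w' c') : HasLogDensity (fun p => w p + w' p) (c + c') := by
  obtain ⟨⟨B, hB⟩, C, δ, hδ, hC⟩ := h
  obtain ⟨⟨B', hB'⟩, C', δ', hδ', hC'⟩ := h'
  refine ⟨⟨B + B', fun p => (abs_add_le _ _).trans (add_le_add (hB p) (hB' p))⟩,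
    C + C', min δ δ', lt_min hδ hδ', fun s hs hs' => ?_⟩
  have h1 := hC s hs (hs'.trans_le (by gcongr; exact min_le_left _ _))
  have h2 := hC' s hs (hs'.trans_le (by gcongr; exact min_le_right _ _))
  have hsum : ∑' p : Nat.Primes, (w p + w' p) * ((p : ℕ) : ℝ) ^ (-s) =
      ∑' p : Nat.Primes, w p * ((p : ℕ) : ℝ) ^ (-s) +
        ∑' p : Nat.Primes, w' p * ((p : ℕ) : ℝ) ^ (-s) := by
    rw [← (summable_weight_mul_rpow ⟨B, hB⟩ hs).tsum_add (summable_weight_mul_rpow ⟨B', hB'⟩ hs)]
    exact tsum_congr fun p => add_mul _ _ _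
  rw [hsum]
  have : ∑' p : Nat.Primes, w p * ((p : ℕ) : ℝ) ^ (-s) +
        ∑' p : Nat.Primes, w' p * ((p : ℕ) : ℝ) ^ (-s) - (c + c') * Real.log (1 / (s - 1)) =
      (∑' p : Nat.Primes, w p * ((p : ℕ) : ℝ) ^ (-s) - c * Real.log (1 / (s - 1))) +
      (∑' p : Nat.Primes, w' p * ((p : ℕ) : ℝ) ^ (-s) - c' * Real.log (1 / (s - 1))) := by ring
  rw [this]
  exact (abs_add_le _ _).trans (add_le_add h1 h2)

theorem HasLogDensity.const_mul {w : Nat.Primes → ℝ} {c : ℝ} (h : HasLogDensity w c) (a : ℝ) :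
    HasLogDensity (fun p => a * w p) (a * c) := by
  obtain ⟨⟨B, hB⟩, C, δ, hδ, hC⟩ := h
  refine ⟨⟨|a| * B, fun p => ?_⟩, |a| * C, δ, hδ, fun s hs hs' => ?_⟩
  · rw [abs_mul]
    exact mul_le_mul_of_nonneg_left (hB p) (abs_nonneg _)
  · have h1 := hC s hs hs'
    have hsum : ∑' p : Nat.Primes, a * w p * ((p : ℕ) : ℝ) ^ (-s) =
        a * ∑' p : Nat.Primes, w p * ((p : ℕ) : ℝ) ^ (-s) := by
      rw [← tsum_mul_left]
      exact tsum_congr fun p => mul_assoc _ _ _
    rw [hsum, mul_assoc, ← mul_sub, abs_mul]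
    exact mul_le_mul_of_nonneg_left h1 (abs_nonneg _)

theorem HasLogDensity.neg {w : Nat.Primes → ℝ} {c : ℝ} (h : HasLogDensity w c) :
    HasLogDensity (fun p => -w p) (-c) := by
  simpa using h.const_mul (-1)

theorem HasLogDensity.sub {w w' : Nat.Primes → ℝ} {c c' : ℝ} (h : HasLogDensity w c)
    (h' : HasLogDensity w' c') : HasLogDensity (fun p => w p - w' p) (c - c') := by
  simpa [sub_eq_add_neg] using h.add h'.neg

theorem hasLogDensity_zero : HasLogDensity (fun _ => 0) 0 :=
  ⟨⟨0, fun _ => by simp⟩, 0, 1, one_pos, fun s _ _ => by simp⟩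

theorem HasLogDensity.finset_sum {ι : Type*} (T : Finset ι) (w : ι → Nat.Primes → ℝ)
    (c : ι → ℝ) (h : ∀ i ∈ T, HasLogDensity (w i) (c i)) :
    HasLogDensity (fun p => ∑ i ∈ T, w i p) (∑ i ∈ T, c i) := by
  classical
  induction T using Finset.induction_on with
  | empty => simpa using hasLogDensity_zero
  | insert a T ha ih =>
    simp only [Finset.sum_insert ha]
    exact (h a (Finset.mem_insert_self _ _)).add
      (ih fun i hi => h i (Finset.mem_insert_of_mem hi))

/-- A weight with finite support has logarithmic density `0`. -/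
theorem hasLogDensity_zero_of_finite_support {w : Nat.Primes → ℝ}
    (hw : (Function.support w).Finite) : HasLogDensity w 0 := by
  classical
  set T : Finset Nat.Primes := hw.toFinset with hT
  have hsupp : ∀ p, p ∉ T → w p = 0 := fun p hp => by
    by_contra h
    exact hp (by simpa [hT] using h)
  have hB : ∀ p, |w p| ≤ ∑ q ∈ T, |w q| := fun p => by
    by_cases hp : p ∈ T
    · exact Finset.single_le_sum (f := fun q => |w q|) (fun q _ => abs_nonneg _) hp
    · rw [hsupp p hp, abs_zero]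
      exact Finset.sum_nonneg fun q _ => abs_nonneg _
  refine ⟨⟨_, hB⟩, ∑ q ∈ T, |w q|, 1, one_pos, fun s hs _ => ?_⟩
  rw [zero_mul, sub_zero, tsum_eq_sum (s := T) fun p hp => by rw [hsupp p hp, zero_mul]]
  refine (Finset.abs_sum_le_sum_abs _ _).trans (Finset.sum_le_sum fun q _ => ?_)
  rw [abs_mul]
  have h1 : |((q : ℕ) : ℝ) ^ (-s)| ≤ 1 := by
    rw [abs_of_nonneg (Real.rpow_nonneg (Nat.cast_nonneg _) _)]
    exact Real.rpow_le_one_of_one_le_of_nonpos (by exact_mod_cast q.2.one_le) (by linarith)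
  calc |w q| * |((q : ℕ) : ℝ) ^ (-s)| ≤ |w q| * 1 :=
        mul_le_mul_of_nonneg_left h1 (abs_nonneg _)
    _ = |w q| := mul_one _

/-- Changing a weight at finitely many primes does not change its logarithmic density. -/
theorem HasLogDensity.congr_finite {w w' : Nat.Primes → ℝ} {c : ℝ} (h : HasLogDensity w c)
    (hfin : {p | w p ≠ w' p}.Finite) : HasLogDensity w' c := by
  have h0 : HasLogDensity (fun p => w' p - w p) 0 := by
    apply hasLogDensity_zero_of_finite_support
    refine hfin.subset fun p hp => ?_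
    simp only [Function.mem_support, ne_eq, sub_eq_zero] at hp
    exact fun h => hp h.symm
  simpa using h.add h0

/-- `c · log (1/(s-1))` is unbounded as `s → 1⁺` when `c ≠ 0`. -/
theorem HasLogDensity.not_bounded_log {c : ℝ} (hc : c ≠ 0) {δ : ℝ} (hδ : 0 < δ) (M : ℝ) :
    ∃ s : ℝ, 1 < s ∧ s < 1 + δ ∧ M < |c * Real.log (1 / (s - 1))| := by
  set t : ℝ := min (δ / 2) (Real.exp (-((|M| + 1) / |c|))) with ht
  have ht0 : 0 < t := lt_min (by linarith) (Real.exp_pos _)
  refine ⟨1 + t, by linarith, by linarith [min_le_left (δ / 2) (Real.exp (-((|M| + 1) / |c|)))], ?_⟩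
  have hc' : 0 < |c| := abs_pos.mpr hc
  have h1 : Real.log (1 / (1 + t - 1)) = -Real.log t := by
    rw [add_sub_cancel_left, one_div, Real.log_inv]
  have h2 : Real.log t ≤ -((|M| + 1) / |c|) := by
    have := Real.log_le_log ht0 (min_le_right (δ / 2) (Real.exp (-((|M| + 1) / |c|))))
    rwa [Real.log_exp] at this
  have h3 : (|M| + 1) / |c| ≤ -Real.log t := by linarith
  rw [h1, abs_mul]
  have h4 : 0 ≤ -Real.log t := le_trans (by positivity) h3
  rw [abs_of_nonneg h4]
  calc M ≤ |M| := le_abs_self M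
    _ < |M| + 1 := by linarith
    _ = |c| * ((|M| + 1) / |c|) := by field_simp
    _ ≤ |c| * -Real.log t := mul_le_mul_of_nonneg_left h3 hc'.le

/-- A weight with nonzero logarithmic density is nonzero at infinitely many primes. -/
theorem HasLogDensity.infinite_support {w : Nat.Primes → ℝ} {c : ℝ} (h : HasLogDensity w c)
    (hc : c ≠ 0) : (Function.support w).Infinite := by
  intro hfin
  have h0 := hasLogDensity_zero_of_finite_support hfin
  obtain ⟨-, C, δ, hδ, hC⟩ := h.sub h0
  obtain ⟨s, hs, hs', hM⟩ := HasLogDensity.not_bounded_log (c := c) hc hδ C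
  have := hC s hs hs'
  simp only [sub_self, zero_mul, tsum_zero, sub_zero, zero_sub, abs_neg] at this
  linarith

/-- For a weight with nonzero logarithmic density and a finite set `S` of primes, there is a
prime outside `S` at which the weight does not vanish. -/
theorem HasLogDensity.exists_not_mem_ne_zero {w : Nat.Primes → ℝ} {c : ℝ}
    (h : HasLogDensity w c) (hc : c ≠ 0) (S : Set Nat.Primes) (hS : S.Finite) :
    ∃ p : Nat.Primes, p ∉ S ∧ w p ≠ 0 := by
  by_contra hcon
  push Not at hcon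
  exact h.infinite_support hc (hS.subset fun p hp => by
    by_contra hpS
    exact hp (hcon p hpS))

end Fermat.Agent.FrobDensity
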