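import Fermat.Agent.Lib.FrobDensity.LogDensity

set_option autoImplicit false

/-!
# Counting primes of given residue degree (definitions shared by the pieces of F2')
-/

namespace Fermat.Agent.FrobDensity

open NumberField

/-- The number of ideals of `𝓞 F` of norm `p` (for `p` a prime number these are the primes of
degree one over `p`) whose residue degree in the Galois extension `L/F` is `d`. -/
noncomputable def degCount (F L : Type*) [Field F] [NumberField F] [Field L] [NumberField L]
    [Algebra F L] (d p : ℕ) : ℕ :=
  Nat.card {𝔭 : Ideal (𝓞 F) // Ideal.absNorm 𝔭 = p ∧ 𝔭.inertiaDegIn (𝓞 L) = d}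

end Fermat.Agent.FrobDensity
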