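import Mathlib
import Fermat.Agent.Lib.FrobDensity.Counts
import Fermat.Agent.Lib.FrobDensity.EulerZeta

set_option autoImplicit false

/-!
# F2' pieces B0 + B1: ramified primes are finite; counting ideals of prime norm in a Galois
extension (helper59)
-/

namespace Fermat.Agent.FrobDensity

open NumberField IsDedekindDomain
open scoped Pointwise

attribute [local instance] FractionRing.liftAlgebra FractionRing.isScalarTower_liftAlgebra

section B0

variable (F L : Type*) [Field F] [NumberField F] [Field L] [NumberField L] [Algebra F L]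

lemma natCast_ne_zero_of_prime {p : ℕ} (hp : p.Prime) : (p : 𝓞 L) ≠ 0 := by
  exact_mod_cast hp.ne_zero

lemma ratPrime_eq_of_mem {p : ℕ} (hp : p.Prime) (v : HeightOneSpectrum (𝓞 L))
    (hmem : (p : 𝓞 L) ∈ v.asIdeal) : ratPrime v = p := by
  obtain ⟨n, hn, hq, _, hnorm⟩ := exists_absNorm_eq_ratPrime_pow v
  have h1 : Ideal.absNorm v.asIdeal ∣ p ^ Module.finrank ℚ L := by
    have := Ideal.absNorm_dvd_absNorm_of_le
      ((Ideal.span_singleton_le_iff_mem (I := v.asIdeal)).mpr hmem)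
    rwa [Ideal.absNorm_span_natCast, NumberField.RingOfIntegers.rank] at this
  rw [hnorm] at h1
  have h2 : ratPrime v ∣ p ^ Module.finrank ℚ L := (dvd_pow_self _ hn.ne').trans h1
  exact (Nat.prime_dvd_prime_iff_eq hq hp).mp (hq.dvd_of_dvd_pow h2)

/-- **B0**: only finitely many rational primes lie under a prime of `L` ramified over `F`. -/
theorem finite_ramified :
    {p : ℕ | p.Prime ∧ ∃ P : Ideal (𝓞 L), P.IsPrime ∧ (p : 𝓞 L) ∈ P ∧
      P.ramificationIdx (𝓞 F) ≠ 1}.Finite := by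
  have hD : differentIdeal (𝓞 F) (𝓞 L) ≠ ⊥ := differentIdeal_ne_bot
  have hfin := Ideal.finite_factors hD
  refine (hfin.image ratPrime).subset ?_
  rintro p ⟨hp, P, hP, hpP, hram⟩
  have hPbot : P ≠ ⊥ := by
    rintro rfl
    exact natCast_ne_zero_of_prime L hp (by simpa using hpP)
  refine ⟨⟨P, hP, hPbot⟩, ?_, ratPrime_eq_of_mem L hp ⟨P, hP, hPbot⟩ hpP⟩
  show P ∣ differentIdeal (𝓞 F) (𝓞 L)
  rw [dvd_differentIdeal_iff]
  intro hunr
  exact hram (Ideal.ramificationIdx_eq_one_iff.mpr hunr)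

end B0

section B1

variable (F L : Type*) [Field F] [NumberField F] [Field L] [NumberField L] [Algebra F L]
  [IsGalois F L]

lemma isPrime_of_absNorm_eq_prime {K : Type*} [Field K] [NumberField K] {p : ℕ} (hp : p.Prime)
    {I : Ideal (𝓞 K)} (h : Ideal.absNorm I = p) : I.IsPrime :=
  Ideal.isPrime_of_irreducible_absNorm (Nat.prime_iff.mp (h.symm ▸ hp)).irreducible

omit [IsGalois F L] in
lemma absNorm_under_and_inertiaDeg {p : ℕ} (hp : p.Prime) {P : Ideal (𝓞 L)}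
    (h : Ideal.absNorm P = p) :
    Ideal.absNorm (P.under (𝓞 F)) = p ∧ P.inertiaDeg (𝓞 F) = 1 := by
  haveI := isPrime_of_absNorm_eq_prime hp h
  have := Ideal.absNorm_pow_inertiaDeg (P.under (𝓞 F)) P
  rw [h] at this
  exact (Nat.Prime.pow_eq_iff hp).mp this

lemma natCast_mem_of_absNorm_eq {K : Type*} [Field K] [NumberField K] {p : ℕ}
    {I : Ideal (𝓞 K)} (h : Ideal.absNorm I = p) : (p : 𝓞 K) ∈ I := by
  have := Ideal.absNorm_mem I
  rwa [h] at this

/-- the fibre of `P ↦ P ∩ 𝓞 F` over a prime `𝔭` of norm `p` and residue degree one -/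
lemma card_fibre_eq_finrank {p : ℕ} (hp : p.Prime)
    (hunr : ∀ P : Ideal (𝓞 L), P.IsPrime → (p : 𝓞 L) ∈ P → P.ramificationIdx (𝓞 F) = 1)
    (𝔭 : Ideal (𝓞 F)) (h𝔭 : Ideal.absNorm 𝔭 = p) (hf : 𝔭.inertiaDegIn (𝓞 L) = 1) :
    Nat.card {P : Ideal (𝓞 L) // Ideal.absNorm P = p ∧ P.under (𝓞 F) = 𝔭} =
      Module.finrank F L := by
  haveI h𝔭prime : 𝔭.IsPrime := isPrime_of_absNorm_eq_prime hp h𝔭
  have hmem𝔭 : (p : 𝓞 F) ∈ 𝔭 := natCast_mem_of_absNorm_eq h𝔭
  -- identify the fibre with the primes over `𝔭`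
  have hset : {P : Ideal (𝓞 L) | Ideal.absNorm P = p ∧ P.under (𝓞 F) = 𝔭} =
      𝔭.primesOver (𝓞 L) := by
    ext P
    constructor
    · rintro ⟨hN, hu⟩
      exact ⟨isPrime_of_absNorm_eq_prime hp hN, ⟨hu.symm⟩⟩
    · rintro ⟨hP, hlo⟩
      haveI := hP
      haveI := hlo
      have h1 := Ideal.absNorm_pow_inertiaDeg 𝔭 P
      rw [← Ideal.inertiaDegIn_eq_inertiaDeg 𝔭 P Gal(L/F), hf, pow_one, h𝔭] at h1
      exact ⟨h1.symm, (Ideal.over_def P 𝔭).symm⟩
  have hcard : Nat.card {P : Ideal (𝓞 L) // Ideal.absNorm P = p ∧ P.under (𝓞 F) = 𝔭} =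
      (𝔭.primesOver (𝓞 L)).ncard := by
    rw [← hset]
    rfl
  rw [hcard]
  have hfund := Ideal.ncard_primesOver_mul_ramificationIdxIn_mul_inertiaDegIn 𝔭 (𝓞 L) Gal(L/F)
  obtain ⟨⟨Q, hQ, hQlo⟩⟩ := (inferInstance : Nonempty (𝔭.primesOver (𝓞 L)))
  haveI := hQ
  haveI := hQlo
  have hpQ : (p : 𝓞 L) ∈ Q := by
    have : algebraMap (𝓞 F) (𝓞 L) (p : 𝓞 F) ∈ Q := by
      have h2 : (p : 𝓞 F) ∈ Q.under (𝓞 F) := by
        rw [← Ideal.over_def Q 𝔭]
        exact hmem𝔭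
      exact h2
    simpa using this
  have he : 𝔭.ramificationIdxIn (𝓞 L) = 1 := by
    rw [Ideal.ramificationIdxIn_eq_ramificationIdx 𝔭 Q Gal(L/F)]
    exact hunr Q hQ hpQ
  rw [he, hf, mul_one, mul_one, IsGalois.card_aut_eq_finrank] at hfund
  exact hfund

/-- **B1**: for a rational prime `p` unramified in `L/F` (Galois of degree `n`), the number of
ideals of `𝓞 L` of norm `p` is `n` times the number of primes of `𝓞 F` of norm `p` with residue
degree one in `L`. -/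
theorem idealCount_eq_mul_degCount_one (p : ℕ) (hp : p.Prime)
    (hunr : ∀ P : Ideal (𝓞 L), P.IsPrime → (p : 𝓞 L) ∈ P → P.ramificationIdx (𝓞 F) = 1) :
    idealCount L p = Module.finrank F L * degCount F L 1 p := by
  classical
  unfold idealCount degCount
  set X := {P : Ideal (𝓞 L) // Ideal.absNorm P = p} with hX
  set Y := {𝔭 : Ideal (𝓞 F) // Ideal.absNorm 𝔭 = p ∧ 𝔭.inertiaDegIn (𝓞 L) = 1} with hY
  have hXfin : Finite X := Ideal.finite_setOfPred_absNorm_eq p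
  have hYfin : Finite Y := by
    have h0 : Finite {𝔭 : Ideal (𝓞 F) // Ideal.absNorm 𝔭 = p} :=
      Ideal.finite_setOfPred_absNorm_eq p
    exact Finite.of_injective (fun y : Y ↦ (⟨y.1, y.2.1⟩ : {𝔭 : Ideal (𝓞 F) // Ideal.absNorm 𝔭 = p}))
      (fun a b h ↦ Subtype.ext (congrArg (fun z : {𝔭 : Ideal (𝓞 F) // Ideal.absNorm 𝔭 = p} ↦ z.1) h))
  letI := Fintype.ofFinite Y
  let π : X → Y := fun P ↦ ⟨P.1.under (𝓞 F), by
    haveI := isPrime_of_absNorm_eq_prime hp P.2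
    obtain ⟨h1, h2⟩ := absNorm_under_and_inertiaDeg F L hp P.2
    refine ⟨h1, ?_⟩
    haveI : P.1.LiesOver (P.1.under (𝓞 F)) := ⟨rfl⟩
    haveI : (P.1.under (𝓞 F)).IsPrime := isPrime_of_absNorm_eq_prime hp h1
    rw [Ideal.inertiaDegIn_eq_inertiaDeg (P.1.under (𝓞 F)) P.1 Gal(L/F)]
    exact h2⟩
  have hfib : ∀ y : Y, Nat.card {x : X // π x = y} = Module.finrank F L := by
    intro y
    rw [← card_fibre_eq_finrank F L hp hunr y.1 y.2.1 y.2.2]
    refine Nat.card_congr ?_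
    exact
      { toFun := fun x ↦ ⟨x.1.1, x.1.2, congrArg Subtype.val x.2⟩
        invFun := fun P ↦ ⟨⟨P.1, P.2.1⟩, Subtype.ext P.2.2⟩
        left_inv := fun x ↦ rfl
        right_inv := fun P ↦ rfl }
  rw [Nat.card_congr (Equiv.sigmaFiberEquiv π).symm, Nat.card_sigma]
  simp only [hfib, Finset.sum_const, Finset.card_univ, smul_eq_mul]
  rw [Nat.card_eq_fintype_card, mul_comm]

end B1

end Fermat.Agent.FrobDensity
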