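import Fermat.Agent.Lib.FrobDensity.Counts

set_option autoImplicit false

/-!
# F2' piece B2a: residue degree in an intermediate Galois extension via the decomposition group

`inertiaDegIn_eq_one_iff_stabilizer_le`: for `F ⊆ M ⊆ L` with `L/F`, `M/F` Galois and `P` a prime
of `L` unramified over `𝔭 = P ∩ F`, the residue degree of `𝔭` in `M` is `1` iff the decomposition
group of `P` is contained in `Gal(L/M)`.
-/

namespace Fermat.Agent.FrobDensity

open NumberField
open scoped Pointwise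

variable (F L : Type*) [Field F] [NumberField F] [Field L] [NumberField L] [Algebra F L] [IsGalois F L]

omit [NumberField F] [NumberField L] [IsGalois F L] in
/-- The action of `Gal(L/M)` on ideals of `𝓞 L` is the restriction of the action of `Gal(L/F)`. -/
theorem towerDegree_smul_restrictScalars (M : IntermediateField F L) (σ : Gal(L/M))
    (P : Ideal (𝓞 L)) : (σ.restrictScalars F) • P = σ • P := by
  ext x
  simp only [Ideal.pointwise_smul_eq_comap, Ideal.mem_comap]
  rfl

omit [NumberField F] [NumberField L] [IsGalois F L] in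
/-- The stabilizer of `P` in `Gal(L/M)` has the same cardinality as the intersection of the
stabilizer of `P` in `Gal(L/F)` with the fixing subgroup of `M`. -/
theorem towerDegree_card_stabilizer_inf (M : IntermediateField F L) (P : Ideal (𝓞 L)) :
    Nat.card (MulAction.stabilizer Gal(L/M) P) =
      Nat.card ↥(MulAction.stabilizer Gal(L/F) P ⊓ M.fixingSubgroup) := by
  refine Nat.card_congr ?_
  refine
    { toFun := fun σ => ⟨(σ.1).restrictScalars F, Subgroup.mem_inf.mpr ⟨?_, ?_⟩⟩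
      invFun := fun τ => ⟨M.fixingSubgroupEquiv ⟨τ.1, (Subgroup.mem_inf.mp τ.2).2⟩, ?_⟩
      left_inv := ?_
      right_inv := ?_ }
  · rw [MulAction.mem_stabilizer_iff, towerDegree_smul_restrictScalars]
    exact σ.2
  · rw [IntermediateField.mem_fixingSubgroup_iff]
    intro x hx
    exact σ.1.commutes ⟨x, hx⟩
  · rw [MulAction.mem_stabilizer_iff, ← towerDegree_smul_restrictScalars]
    have := (Subgroup.mem_inf.mp τ.2).1
    rw [MulAction.mem_stabilizer_iff] at this
    have hτ : AlgEquiv.restrictScalars F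
        (M.fixingSubgroupEquiv ⟨τ.1, (Subgroup.mem_inf.mp τ.2).2⟩) = τ.1 := by
      ext x
      rfl
    rw [hτ]
    exact this
  · intro σ
    ext x
    rfl
  · intro τ
    ext x
    rfl

theorem inertiaDegIn_eq_one_iff_stabilizer_le (M : IntermediateField F L) [IsGalois F M]
    (𝔭 : Ideal (𝓞 F)) [𝔭.IsPrime] (h0 : 𝔭 ≠ ⊥) (P : Ideal (𝓞 L)) [P.IsPrime] [P.LiesOver 𝔭]
    (hunr : P.ramificationIdx (𝓞 F) = 1) :
    𝔭.inertiaDegIn (𝓞 M) = 1 ↔ MulAction.stabilizer Gal(L/F) P ≤ M.fixingSubgroup := by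
  have _h0 := h0
  -- the prime of `M` below `P`
  set 𝔮 : Ideal (𝓞 M) := P.under (𝓞 M) with h𝔮
  have : 𝔮.IsPrime := Ideal.IsPrime.under (𝓞 M) P
  have : P.LiesOver 𝔮 := Ideal.over_under P
  have : 𝔮.LiesOver 𝔭 := Ideal.LiesOver.tower_bot P 𝔮 𝔭
  -- tower laws
  have hf : P.inertiaDeg (𝓞 F) = 𝔮.inertiaDeg (𝓞 F) * P.inertiaDeg (𝓞 M) :=
    Ideal.inertiaDeg_tower 𝔮 P
  have he : P.ramificationIdx (𝓞 F) = 𝔮.ramificationIdx (𝓞 F) * P.ramificationIdx (𝓞 M) :=
    Ideal.ramificationIdx_tower 𝔮 P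
  have he' : P.ramificationIdx (𝓞 M) = 1 := by
    rw [hunr] at he
    exact Nat.eq_one_of_mul_eq_one_left he.symm
  -- cardinalities of the decomposition groups
  have hD : Nat.card (MulAction.stabilizer Gal(L/F) P) = P.inertiaDeg (𝓞 F) := by
    rw [Ideal.card_stabilizer_eq 𝔭 P, Ideal.ramificationIdxIn_eq_ramificationIdx 𝔭 P Gal(L/F),
      Ideal.inertiaDegIn_eq_inertiaDeg 𝔭 P Gal(L/F), hunr, one_mul]
  have hDM : Nat.card ↥(MulAction.stabilizer Gal(L/F) P ⊓ M.fixingSubgroup) =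
      P.inertiaDeg (𝓞 M) := by
    rw [← towerDegree_card_stabilizer_inf, Ideal.card_stabilizer_eq 𝔮 P,
      Ideal.ramificationIdxIn_eq_ramificationIdx 𝔮 P Gal(L/M),
      Ideal.inertiaDegIn_eq_inertiaDeg 𝔮 P Gal(L/M), he', one_mul]
  have hfM : 𝔭.inertiaDegIn (𝓞 M) = 𝔮.inertiaDeg (𝓞 F) :=
    Ideal.inertiaDegIn_eq_inertiaDeg 𝔭 𝔮 Gal(M/F)
  have hpos : 0 < P.inertiaDeg (𝓞 M) := by
    rw [← hDM]
    exact Nat.card_pos
  rw [hfM]
  constructor
  · intro h1
    rw [h1, one_mul] at hf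
    have hcard : Nat.card ↥(MulAction.stabilizer Gal(L/F) P ⊓ M.fixingSubgroup) =
        Nat.card (MulAction.stabilizer Gal(L/F) P) := by rw [hD, hDM, hf]
    have hle : MulAction.stabilizer Gal(L/F) P ⊓ M.fixingSubgroup ≤
        MulAction.stabilizer Gal(L/F) P := inf_le_left
    have heq := Subgroup.eq_of_le_of_card_ge hle (le_of_eq hcard.symm)
    intro σ hσ
    have : σ ∈ MulAction.stabilizer Gal(L/F) P ⊓ M.fixingSubgroup := by rw [heq]; exact hσ
    exact (Subgroup.mem_inf.mp this).2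
  · intro hle
    have heq : MulAction.stabilizer Gal(L/F) P ⊓ M.fixingSubgroup =
        MulAction.stabilizer Gal(L/F) P := inf_eq_left.mpr hle
    rw [heq, hD] at hDM
    rw [hDM] at hf
    -- f = f' * f with f > 0
    have : 𝔮.inertiaDeg (𝓞 F) * P.inertiaDeg (𝓞 M) = 1 * P.inertiaDeg (𝓞 M) := by
      rw [one_mul]; exact hf.symm
    exact Nat.eq_of_mul_eq_mul_right hpos this

end Fermat.Agent.FrobDensity
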