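import Fermat.Agent.Lib.FrobDensity.EulerZeta
import Fermat.Agent.Lib.FrobDensity.Splitting
import Fermat.Agent.Lib.FrobDensity.TowerDegree

set_option autoImplicit false

/-!
# Inert primes of degree one in a cyclic extension (divisor induction)
-/

namespace Fermat.Agent.FrobDensity

open NumberField
open scoped Pointwise

section general

variable (F L : Type*) [Field F] [NumberField F] [Field L] [NumberField L] [Algebra F L]

/-- The finite set of ideals of `𝓞 F` of norm `p`. -/
noncomputable def normFinset (p : ℕ) : Finset (Ideal (𝓞 F)) :=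
  (Ideal.finite_setOfPred_absNorm_eq (S := 𝓞 F) p).toFinset

variable {F} in
theorem mem_normFinset {p : ℕ} {𝔭 : Ideal (𝓞 F)} : 𝔭 ∈ normFinset F p ↔ Ideal.absNorm 𝔭 = p := by
  simp [normFinset]

open Classical in
theorem degCount_eq_card_filter (d p : ℕ) :
    degCount F L d p = ((normFinset F p).filter fun 𝔭 => 𝔭.inertiaDegIn (𝓞 L) = d).card := by
  rw [degCount, ← Nat.card_eq_finsetCard]
  refine Nat.card_congr (Equiv.subtypeEquivRight fun 𝔭 => ?_)
  simp [mem_normFinset]

theorem idealCount_eq_card_normFinset (p : ℕ) : idealCount F p = (normFinset F p).card := by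
  rw [idealCount, ← Nat.card_eq_finsetCard]
  exact Nat.card_congr (Equiv.subtypeEquivRight fun 𝔭 => by simp [mem_normFinset])

theorem degCount_le_idealCount (d p : ℕ) : degCount F L d p ≤ idealCount F p := by
  classical
  rw [degCount_eq_card_filter, idealCount_eq_card_normFinset]
  exact Finset.card_filter_le _ _

open Classical in
/-- Fibrewise count: the primes of norm `p` whose residue degree divides `d`. -/
theorem sum_divisors_degCount (d p : ℕ) (hd : d ≠ 0) :
    ∑ d' ∈ d.divisors, degCount F L d' p =
      ((normFinset F p).filter fun 𝔭 => 𝔭.inertiaDegIn (𝓞 L) ∣ d).card := by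
  rw [Finset.card_eq_sum_card_fiberwise (f := fun 𝔭 : Ideal (𝓞 F) => 𝔭.inertiaDegIn (𝓞 L))
    (t := d.divisors)]
  · refine Finset.sum_congr rfl fun d' hd' => ?_
    rw [degCount_eq_card_filter, Finset.filter_filter]
    congr 1
    ext 𝔭
    simp only [Finset.mem_filter]
    constructor
    · rintro ⟨h1, h2⟩
      exact ⟨h1, h2 ▸ (Nat.mem_divisors.mp hd').1, h2⟩
    · rintro ⟨h1, -, h2⟩
      exact ⟨h1, h2⟩
  · intro 𝔭 h𝔭
    simp only [Finset.coe_filter, Set.mem_ofPred_eq] at h𝔭
    simpa [Nat.mem_divisors, hd] using h𝔭.2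

end general

section galois

variable (F L : Type*) [Field F] [NumberField F] [Field L] [NumberField L] [Algebra F L]
  [IsGalois F L]

/-- The finite set of rational primes lying under a prime of `L` ramified over `F`. -/
noncomputable def ramifiedPrimes : Set Nat.Primes :=
  {p | ∃ P : Ideal (𝓞 L), P.IsPrime ∧ ((p : ℕ) : 𝓞 L) ∈ P ∧ P.ramificationIdx (𝓞 F) ≠ 1}

omit [IsGalois F L] in
theorem finite_ramifiedPrimes : (ramifiedPrimes F L).Finite := by
  have h := finite_ramified F L
  have hinj : Set.InjOn (fun p : Nat.Primes => (p : ℕ)) (ramifiedPrimes F L) :=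
    fun p _ q _ hpq => Subtype.ext hpq
  refine Set.Finite.of_finite_image (h.subset ?_) hinj
  rintro _ ⟨p, hp, rfl⟩
  exact ⟨p.2, hp⟩

/-- The primes of degree one of `F` that split completely in the Galois extension `L/F` have
logarithmic density `1/[L:F]`. -/
theorem hasLogDensity_degCount_one :
    HasLogDensity (fun p : Nat.Primes => (degCount F L 1 p : ℝ)) (1 / Module.finrank F L) := by
  have hA := (hasLogDensity_idealCount L).const_mul (1 / (Module.finrank F L : ℝ))
  rw [mul_one] at hA
  refine hA.congr_finite ((finite_ramifiedPrimes F L).subset fun p hp => ?_)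
  by_contra hpr
  apply hp
  have hunr : ∀ P : Ideal (𝓞 L), P.IsPrime → ((p : ℕ) : 𝓞 L) ∈ P →
      P.ramificationIdx (𝓞 F) = 1 := by
    intro P hP hpP
    by_contra h
    exact hpr ⟨P, hP, hpP, h⟩
  have h1 := idealCount_eq_mul_degCount_one F L p p.2 hunr
  have hn : (Module.finrank F L : ℝ) ≠ 0 := by
    exact_mod_cast (Module.finrank_pos (R := F) (M := L)).ne'
  change 1 / (Module.finrank F L : ℝ) * (idealCount L p : ℝ) = (degCount F L 1 p : ℝ)
  rw [h1]
  push_cast
  field_simp

end galois

section group

variable (G : Type*) [Group G] [IsCyclic G]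

/-- In a cyclic group, the subgroup of the elements killed by `d`. -/
noncomputable def powKer (d : ℕ) : Subgroup G :=
  letI : CommGroup G := IsCyclic.commGroup
  (powMonoidHom d : G →* G).ker

variable {G}

theorem mem_powKer {d : ℕ} {h : G} : h ∈ powKer G d ↔ h ^ d = 1 := by
  let _ : CommGroup G := IsCyclic.commGroup
  exact MonoidHom.mem_ker

theorem card_powKer [Finite G] {d : ℕ} (hd : d ∣ Nat.card G) : Nat.card (powKer G d) = d := by
  let _ : CommGroup G := IsCyclic.commGroup
  have := IsCyclic.card_powMonoidHom_ker G d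
  rw [Nat.gcd_eq_right hd] at this
  exact this

instance normal_powKer (d : ℕ) : (powKer G d).Normal := by
  let _ : CommGroup G := IsCyclic.commGroup
  exact MonoidHom.normal_ker _

theorem le_powKer_iff [Finite G] (D : Subgroup G) (d : ℕ) :
    D ≤ powKer G d ↔ Nat.card D ∣ d := by
  constructor
  · intro h
    obtain ⟨g, hg⟩ := IsCyclic.exists_generator (α := D)
    have h1 : orderOf g = Nat.card D := orderOf_eq_card_of_forall_mem_zpowers hg
    have h2 : (g : G) ^ d = 1 := mem_powKer.mp (h g.2)
    have h3 : g ^ d = 1 := Subtype.ext (by simpa using h2)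
    rw [← h1]
    exact orderOf_dvd_of_pow_eq_one h3
  · rintro ⟨c, hc⟩ h hh
    rw [mem_powKer, hc, pow_mul]
    have : (⟨h, hh⟩ : D) ^ Nat.card D = 1 := pow_card_eq_one'
    have h2 : h ^ Nat.card D = 1 := by
      have h3 := congrArg Subtype.val this
      rwa [Subgroup.coe_pow, Subgroup.coe_one] at h3
    rw [h2, one_pow]

end group

section cyclic

variable (F L : Type*) [Field F] [NumberField F] [Field L] [NumberField L] [Algebra F L]
  [IsGalois F L] [IsCyclic Gal(L/F)]

/-- The subfield of the cyclic extension `L/F` fixed by the elements of order dividing `d`. -/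
noncomputable def cycField (d : ℕ) : IntermediateField F L :=
  IntermediateField.fixedField (powKer Gal(L/F) d)

instance isGalois_cycField (d : ℕ) : IsGalois F (cycField F L d) :=
  IsGalois.of_fixedField_normal_subgroup _

omit [IsGalois F L] in
theorem fixingSubgroup_cycField (d : ℕ) :
    (cycField F L d).fixingSubgroup = powKer Gal(L/F) d :=
  IntermediateField.fixingSubgroup_fixedField _

theorem finrank_cycField_mul {d : ℕ} (hd : d ∣ Module.finrank F L) :
    Module.finrank F (cycField F L d) * d = Module.finrank F L := by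
  rw [IntermediateField.finrank_eq_fixingSubgroup_index, fixingSubgroup_cycField]
  have h1 := Subgroup.index_mul_card (powKer Gal(L/F) d)
  rw [card_powKer (by rwa [IsGalois.card_aut_eq_finrank]), IsGalois.card_aut_eq_finrank] at h1
  exact h1

/-- For a prime `𝔭` of norm `p` (unramified in `L`), `𝔭` splits completely in `cycField d`
iff its residue degree in `L` divides `d`. -/
theorem inertiaDegIn_cycField_eq_one_iff {p : ℕ} (hp : p.Prime)
    (hunr : ∀ P : Ideal (𝓞 L), P.IsPrime → (p : 𝓞 L) ∈ P → P.ramificationIdx (𝓞 F) = 1)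
    (d : ℕ) (𝔭 : Ideal (𝓞 F)) (h𝔭 : Ideal.absNorm 𝔭 = p) :
    𝔭.inertiaDegIn (𝓞 (cycField F L d)) = 1 ↔ 𝔭.inertiaDegIn (𝓞 L) ∣ d := by
  have : 𝔭.IsPrime := isPrime_of_absNorm_eq_prime hp h𝔭
  have h0 : 𝔭 ≠ ⊥ := by
    rintro rfl
    rw [Ideal.absNorm_bot] at h𝔭
    exact hp.ne_zero h𝔭.symm
  obtain ⟨⟨P, hP, hPl⟩⟩ : Nonempty (𝔭.primesOver (𝓞 L)) := inferInstance
  have hpP : (p : 𝓞 L) ∈ P := by
    have h1 : (p : 𝓞 F) ∈ 𝔭 := natCast_mem_of_absNorm_eq h𝔭
    have h2 : algebraMap (𝓞 F) (𝓞 L) (p : 𝓞 F) ∈ P := by
      rw [hPl.over] at h1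
      exact h1
    simpa using h2
  have he : P.ramificationIdx (𝓞 F) = 1 := hunr P hP hpP
  rw [inertiaDegIn_eq_one_iff_stabilizer_le F L (cycField F L d) 𝔭 h0 P he,
    fixingSubgroup_cycField, le_powKer_iff, Ideal.card_stabilizer_eq 𝔭 P,
    Ideal.ramificationIdxIn_eq_ramificationIdx 𝔭 P Gal(L/F), he, one_mul]

theorem degCount_cycField_eq_sum {p : ℕ} (hp : p.Prime)
    (hunr : ∀ P : Ideal (𝓞 L), P.IsPrime → (p : 𝓞 L) ∈ P → P.ramificationIdx (𝓞 F) = 1)
    {d : ℕ} (hd : d ≠ 0) :
    degCount F (cycField F L d) 1 p = ∑ d' ∈ d.divisors, degCount F L d' p := by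
  classical
  rw [sum_divisors_degCount F L d p hd, degCount_eq_card_filter]
  congr 1
  refine Finset.filter_congr fun 𝔭 h𝔭 => ?_
  exact inertiaDegIn_cycField_eq_one_iff F L hp hunr d 𝔭 (mem_normFinset.mp h𝔭)

/-- The sum over the divisors `d'` of `d` of the counts of primes of residue degree `d'` has
logarithmic density `d/n`. -/
theorem hasLogDensity_sum_divisors {d : ℕ} (hd : d ∣ Module.finrank F L) :
    HasLogDensity (fun p : Nat.Primes => ∑ d' ∈ d.divisors, (degCount F L d' p : ℝ))
      (d / Module.finrank F L) := by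
  have hn : 0 < Module.finrank F L := Module.finrank_pos
  have hd0 : d ≠ 0 := fun h => hn.ne' (by simpa [h] using hd)
  have h1 := hasLogDensity_degCount_one F (cycField F L d)
  have h2 : (1 : ℝ) / Module.finrank F (cycField F L d) = d / Module.finrank F L := by
    have h3 := finrank_cycField_mul F L hd
    have h4 : (Module.finrank F (cycField F L d) : ℝ) * d = Module.finrank F L := by
      exact_mod_cast h3
    have h5 : (Module.finrank F (cycField F L d) : ℝ) ≠ 0 := by
      intro h
      rw [h, zero_mul] at h4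
      exact hn.ne' (by exact_mod_cast h4.symm)
    have h6 : (Module.finrank F L : ℝ) ≠ 0 := by exact_mod_cast hn.ne'
    field_simp
    linarith
  rw [h2] at h1
  refine h1.congr_finite ((finite_ramifiedPrimes F L).subset fun p hp => ?_)
  by_contra hpr
  apply hp
  have hunr : ∀ P : Ideal (𝓞 L), P.IsPrime → ((p : ℕ) : 𝓞 L) ∈ P →
      P.ramificationIdx (𝓞 F) = 1 := by
    intro P hP hpP
    by_contra h
    exact hpr ⟨P, hP, hpP, h⟩
  change (degCount F (cycField F L d) 1 p : ℝ) = ∑ d' ∈ d.divisors, (degCount F L d' p : ℝ)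
  rw [degCount_cycField_eq_sum F L p.2 hunr hd0]
  push_cast
  rfl

/-- **Divisor induction**: in a cyclic extension `L/F` of degree `n`, for `d ∣ n` the primes of
degree one of `F` with residue degree exactly `d` in `L` have logarithmic density `φ(d)/n`. -/
theorem hasLogDensity_degCount (d : ℕ) (hd : d ∣ Module.finrank F L) :
    HasLogDensity (fun p : Nat.Primes => (degCount F L d p : ℝ))
      (Nat.totient d / Module.finrank F L) := by
  have hn : 0 < Module.finrank F L := Module.finrank_pos
  induction d using Nat.strong_induction_on with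
  | _ d ih =>
    have hd0 : d ≠ 0 := fun h => hn.ne' (by simpa [h] using hd)
    have hsum := hasLogDensity_sum_divisors F L hd
    have hprop : HasLogDensity
        (fun p : Nat.Primes => ∑ d' ∈ d.properDivisors, (degCount F L d' p : ℝ))
        (∑ d' ∈ d.properDivisors, (Nat.totient d' : ℝ) / Module.finrank F L) := by
      refine HasLogDensity.finset_sum d.properDivisors
        (fun d' p => (degCount F L d' p : ℝ)) (fun d' => (Nat.totient d' : ℝ) / _) ?_
      intro d' hd'
      rw [Nat.mem_properDivisors] at hd'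
      exact ih d' hd'.2 (hd'.1.trans hd)
    have hsub := hsum.sub hprop
    have hc : (d : ℝ) / Module.finrank F L -
        ∑ d' ∈ d.properDivisors, (Nat.totient d' : ℝ) / Module.finrank F L =
        Nat.totient d / Module.finrank F L := by
      have h1 := Nat.sum_totient d
      rw [← Nat.insert_self_properDivisors hd0,
        Finset.sum_insert (Nat.self_notMem_properDivisors)] at h1
      have h2 : (d : ℝ) = Nat.totient d + ∑ d' ∈ d.properDivisors, (Nat.totient d' : ℝ) := by
        exact_mod_cast h1.symm
      rw [← Finset.sum_div]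
      field_simp
      linarith
    rw [hc] at hsub
    refine hsub.congr_finite ?_
    convert Set.finite_empty
    ext p
    simp only [Set.mem_ofPred_eq, Set.mem_empty_iff_false, iff_false, not_not, ne_eq]
    rw [← Nat.insert_self_properDivisors hd0,
      Finset.sum_insert (Nat.self_notMem_properDivisors)]
    ring

/-- In a cyclic extension `L/F` of number fields, outside any finite set of rational primes
there is a prime of `F` of degree one which is inert in `L` and lies over a prime unramified in
`L/F`. -/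
theorem exists_inert (S : Set Nat.Primes) (hS : S.Finite) :
    ∃ (p : Nat.Primes) (𝔭 : Ideal (𝓞 F)), p ∉ S ∧ Ideal.absNorm 𝔭 = p ∧
      𝔭.inertiaDegIn (𝓞 L) = Module.finrank F L := by
  have hn : 0 < Module.finrank F L := Module.finrank_pos
  have h := hasLogDensity_degCount F L (Module.finrank F L) dvd_rfl
  have hc : (Nat.totient (Module.finrank F L) : ℝ) / Module.finrank F L ≠ 0 := by
    have h1 : 0 < Nat.totient (Module.finrank F L) := Nat.totient_pos.mpr hn
    positivity
  obtain ⟨p, hpS, hp⟩ := h.exists_not_mem_ne_zero hc S hS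
  have hpos : degCount F L (Module.finrank F L) p ≠ 0 := by
    intro h0
    exact hp (by simp [h0])
  rw [degCount] at hpos
  have hne : Nonempty {𝔭 : Ideal (𝓞 F) // Ideal.absNorm 𝔭 = p ∧
      𝔭.inertiaDegIn (𝓞 L) = Module.finrank F L} := by
    by_contra hempty
    rw [not_nonempty_iff] at hempty
    exact hpos Nat.card_of_isEmpty
  obtain ⟨𝔭, h1, h2⟩ := hne
  exact ⟨p, 𝔭, hpS, h1, h2⟩

end cyclic

end Fermat.Agent.FrobDensity
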