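import Mathlib
import Fermat.Prelude.Def_EllipticCurve_FrobeniusTrace

set_option autoImplicit false

/-!
# Consumers of the Frobenius density theorem

The Frobenius density theorem (`FrobeniusDensityStatement`, proved in `Final.lean`) says that every
element `g` of a finite Galois group `Gal(L/ℚ)` has a power `g ^ k`, `k` prime to the order of `g`,
which is the restriction of a Frobenius element at a prime outside any given finite set.

* `frobenius_density_open_of`: the same statement modulo an arbitrary open normal subgroup of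
  `Gal(ℚ̄/ℚ)`.
* `charpoly_eq_of_frobenius_of`: two representations `Gal(ℚ̄/ℚ) → M₂(R)` with open kernels whose
  characteristic polynomials agree on Frobenius elements outside a finite set have the same
  characteristic polynomials everywhere.
-/

namespace Fermat.Agent.FrobDensity

/-- The statement of the Frobenius density theorem (weak Chebotarev). -/
def FrobeniusDensityStatement : Prop :=
  ∀ (L : IntermediateField ℚ (AlgebraicClosure ℚ)) [FiniteDimensional ℚ L] [IsGalois ℚ L]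
    (g : L ≃ₐ[ℚ] L) (S : Finset ℕ),
    ∃ (ℓ : ℕ) (A : ValuationSubring (AlgebraicClosure ℚ))
      (τ : AlgebraicClosure ℚ ≃ₐ[ℚ] AlgebraicClosure ℚ) (k : ℕ),
      ℓ.Prime ∧ ℓ ∉ S ∧ A.LiesOverPrime ℓ ∧ A.IsFrobeniusAt τ ℓ ∧ k.Coprime (orderOf g) ∧
        AlgEquiv.restrictNormalHom L τ = g ^ k

/-- `ℚ̄/ℚ` is Galois. -/
theorem consumer_isGalois_Qb : IsGalois ℚ (AlgebraicClosure ℚ) := by
  have : Algebra.IsAlgebraic ℚ (AlgebraicClosure ℚ) := AlgebraicClosure.isAlgebraic ℚ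
  have : IsAlgClosure ℚ (AlgebraicClosure ℚ) := ⟨inferInstance, inferInstance⟩
  infer_instance

/-- An element of `Gal(ℚ̄/ℚ)` fixing a normal subfield `L` restricts to the identity of `L`. -/
theorem consumer_restrictNormalHom_eq_one (L : IntermediateField ℚ (AlgebraicClosure ℚ))
    [Normal ℚ L] {ρ : AlgebraicClosure ℚ ≃ₐ[ℚ] AlgebraicClosure ℚ}
    (hρ : ρ ∈ L.fixingSubgroup) : AlgEquiv.restrictNormalHom L ρ = 1 := by
  ext x
  have h := AlgEquiv.restrictNormal_commutes ρ L x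
  have h2 := (IntermediateField.mem_fixingSubgroup_iff L ρ).mp hρ _ x.2
  exact h.trans h2

/-- An element of `Gal(ℚ̄/ℚ)` restricting to the identity of `L` fixes `L`. -/
theorem consumer_mem_fixingSubgroup (L : IntermediateField ℚ (AlgebraicClosure ℚ))
    [Normal ℚ L] {ρ : AlgebraicClosure ℚ ≃ₐ[ℚ] AlgebraicClosure ℚ}
    (hρ : AlgEquiv.restrictNormalHom L ρ = 1) : ρ ∈ L.fixingSubgroup := by
  rw [IntermediateField.mem_fixingSubgroup_iff]
  intro x hx
  have h := AlgEquiv.restrictNormal_commutes ρ L ⟨x, hx⟩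
  have h2 : (AlgEquiv.restrictNormalHom L ρ) ⟨x, hx⟩ = ⟨x, hx⟩ := by rw [hρ]; rfl
  have h3 : (ρ.restrictNormal L) ⟨x, hx⟩ = ⟨x, hx⟩ := h2
  rw [h3] at h
  exact h.symm

/-- If `k` is prime to the order of `g`, then `g` is a power of `g ^ k`. -/
theorem consumer_exists_pow_pow_eq {G : Type*} [Group G] (g : G) (hg : 0 < orderOf g) (k : ℕ)
    (hk : k.Coprime (orderOf g)) : ∃ j : ℕ, (g ^ k) ^ j = g := by
  obtain ⟨j, -, hj⟩ := Nat.exists_mul_mod_eq_of_coprime 1 hk hg.ne'
  refine ⟨j, ?_⟩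
  rw [← pow_mul]
  conv_rhs => rw [← pow_one g]
  rw [pow_eq_pow_iff_modEq]
  exact hj

/-- The Frobenius density theorem modulo an open normal subgroup of `Gal(ℚ̄/ℚ)`. -/
theorem frobenius_density_open_of (H : FrobeniusDensityStatement)
    (U : Subgroup (AlgebraicClosure ℚ ≃ₐ[ℚ] AlgebraicClosure ℚ)) [U.Normal]
    (hU : IsOpen (U : Set (AlgebraicClosure ℚ ≃ₐ[ℚ] AlgebraicClosure ℚ)))
    (g : AlgebraicClosure ℚ ≃ₐ[ℚ] AlgebraicClosure ℚ) (S : Finset ℕ) :
    ∃ (ℓ : ℕ) (A : ValuationSubring (AlgebraicClosure ℚ))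
      (τ : AlgebraicClosure ℚ ≃ₐ[ℚ] AlgebraicClosure ℚ) (k j : ℕ),
      ℓ.Prime ∧ ℓ ∉ S ∧ A.LiesOverPrime ℓ ∧ A.IsFrobeniusAt τ ℓ ∧ τ⁻¹ * g ^ k ∈ U ∧
        g⁻¹ * τ ^ j ∈ U := by
  have hnhds : (U : Set (AlgebraicClosure ℚ ≃ₐ[ℚ] AlgebraicClosure ℚ)) ∈ nhds 1 :=
    hU.mem_nhds U.one_mem
  have hGal : IsGalois ℚ (AlgebraicClosure ℚ) := consumer_isGalois_Qb
  obtain ⟨L, hL⟩ := (InfiniteGalois.krullTopology_mem_nhds_one_iff_of_isGalois _).mp hnhds
  have : FiniteDimensional ℚ L.toIntermediateField := L.finiteDimensional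
  have : IsGalois ℚ L.toIntermediateField := L.isGalois
  set g' : L.toIntermediateField ≃ₐ[ℚ] L.toIntermediateField :=
    AlgEquiv.restrictNormalHom L.toIntermediateField g with hg'
  obtain ⟨ℓ, A, τ, k, hℓ, hℓS, hA, hτ, hk, hres⟩ := H L.toIntermediateField g' S
  have hord : 0 < orderOf g' := orderOf_pos g'
  obtain ⟨j, hj⟩ := consumer_exists_pow_pow_eq g' hord k hk
  refine ⟨ℓ, A, τ, k, j, hℓ, hℓS, hA, hτ, hL ?_, hL ?_⟩
  · apply consumer_mem_fixingSubgroup
    rw [map_mul, map_inv, map_pow, hres, ← hg', inv_mul_cancel]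
  · apply consumer_mem_fixingSubgroup
    rw [map_mul, map_inv, map_pow, hres, hj, ← hg', inv_mul_cancel]

/-- Trace of powers of a `2 × 2` matrix: the Cayley–Hamilton recursion. -/
theorem consumer_pow_succ_succ {R : Type*} [CommRing R] (N : Matrix (Fin 2) (Fin 2) R) (j : ℕ) :
    N ^ (j + 2) = N.trace • N ^ (j + 1) - N.det • N ^ j := by
  nontriviality R
  have hCH : N ^ 2 = N.trace • N - N.det • (1 : Matrix (Fin 2) (Fin 2) R) := by
    have h := Matrix.aeval_self_charpoly N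
    rw [Matrix.charpoly_fin_two] at h
    simp only [map_add, map_sub, map_mul, map_pow, Polynomial.aeval_X, Polynomial.aeval_C,
      Algebra.algebraMap_eq_smul_one, smul_mul_assoc, one_mul] at h
    rw [← sub_eq_zero]
    rw [← h]
    abel
  calc N ^ (j + 2) = N ^ 2 * N ^ j := by rw [← pow_add, add_comm]
    _ = (N.trace • N - N.det • (1 : Matrix (Fin 2) (Fin 2) R)) * N ^ j := by rw [hCH]
    _ = N.trace • N ^ (j + 1) - N.det • N ^ j := by
        rw [sub_mul, smul_mul_assoc, smul_mul_assoc, one_mul, pow_succ']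

/-- The trace of a power of a `2 × 2` matrix is determined by its trace and determinant. -/
theorem consumer_trace_pow_eq {R : Type*} [CommRing R] (N₁ N₂ : Matrix (Fin 2) (Fin 2) R)
    (ht : N₁.trace = N₂.trace) (hd : N₁.det = N₂.det) (j : ℕ) :
    (N₁ ^ j).trace = (N₂ ^ j).trace := by
  induction j using Nat.strong_induction_on with
  | _ j ih =>
    match j, ih with
    | 0, _ => simp
    | 1, _ => simpa using ht
    | (j + 2), ih =>
      rw [consumer_pow_succ_succ, consumer_pow_succ_succ, Matrix.trace_sub, Matrix.trace_sub,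
        Matrix.trace_smul, Matrix.trace_smul, Matrix.trace_smul, Matrix.trace_smul,
        ih (j + 1) (by omega), ih j (by omega), ht, hd]

/-- The characteristic polynomial of a power of a `2 × 2` matrix is determined by the
characteristic polynomial of the matrix. -/
theorem consumer_charpoly_pow_eq {R : Type*} [CommRing R] (N₁ N₂ : Matrix (Fin 2) (Fin 2) R)
    (h : N₁.charpoly = N₂.charpoly) (j : ℕ) : (N₁ ^ j).charpoly = (N₂ ^ j).charpoly := by
  nontriviality R
  have ht : N₁.trace = N₂.trace := by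
    have h1 := congrArg (fun q : Polynomial R => q.coeff 1) h
    simp only [Matrix.charpoly_fin_two] at h1
    simpa [Polynomial.coeff_X, Polynomial.coeff_C, Polynomial.coeff_X_pow] using h1
  have hd : N₁.det = N₂.det := by
    have h0 := congrArg (fun q : Polynomial R => q.coeff 0) h
    simp only [Matrix.charpoly_fin_two] at h0
    simpa [Polynomial.coeff_X, Polynomial.coeff_C, Polynomial.coeff_X_pow] using h0
  rw [Matrix.charpoly_fin_two, Matrix.charpoly_fin_two, consumer_trace_pow_eq N₁ N₂ ht hd j,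
    Matrix.det_pow, Matrix.det_pow, hd]

/-- Two representations `Gal(ℚ̄/ℚ) → M₂(R)` with open kernels whose characteristic polynomials
agree on all Frobenius elements at primes outside a finite set `S` have the same characteristic
polynomial at every element. -/
theorem charpoly_eq_of_frobenius_of (H : FrobeniusDensityStatement)
    {R : Type*} [CommRing R]
    (ρ₁ ρ₂ : (AlgebraicClosure ℚ ≃ₐ[ℚ] AlgebraicClosure ℚ) →* Matrix (Fin 2) (Fin 2) R)
    (h₁ : IsOpen {σ : AlgebraicClosure ℚ ≃ₐ[ℚ] AlgebraicClosure ℚ | ρ₁ σ = 1})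
    (h₂ : IsOpen {σ : AlgebraicClosure ℚ ≃ₐ[ℚ] AlgebraicClosure ℚ | ρ₂ σ = 1}) (S : Finset ℕ)
    (h : ∀ ℓ : ℕ, ℓ.Prime → ℓ ∉ S → ∀ (A : ValuationSubring (AlgebraicClosure ℚ))
      (τ : AlgebraicClosure ℚ ≃ₐ[ℚ] AlgebraicClosure ℚ),
      A.LiesOverPrime ℓ → A.IsFrobeniusAt τ ℓ → (ρ₁ τ).charpoly = (ρ₂ τ).charpoly)
    (g : AlgebraicClosure ℚ ≃ₐ[ℚ] AlgebraicClosure ℚ) :
    (ρ₁ g).charpoly = (ρ₂ g).charpoly := by
  let U : Subgroup (AlgebraicClosure ℚ ≃ₐ[ℚ] AlgebraicClosure ℚ) := ρ₁.ker ⊓ ρ₂.ker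
  have : U.Normal := Subgroup.normal_inf_normal _ _
  have hU : IsOpen (U : Set (AlgebraicClosure ℚ ≃ₐ[ℚ] AlgebraicClosure ℚ)) := by
    have : (U : Set (AlgebraicClosure ℚ ≃ₐ[ℚ] AlgebraicClosure ℚ)) =
        {σ | ρ₁ σ = 1} ∩ {σ | ρ₂ σ = 1} := by
      ext σ
      simp [U, MonoidHom.mem_ker]
    rw [this]
    exact h₁.inter h₂
  obtain ⟨ℓ, A, τ, k, j, hℓ, hℓS, hA, hτ, -, hj⟩ := frobenius_density_open_of H U hU g S
  have key : ∀ ρ : (AlgebraicClosure ℚ ≃ₐ[ℚ] AlgebraicClosure ℚ) →* Matrix (Fin 2) (Fin 2) R,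
      ρ (g⁻¹ * τ ^ j) = 1 → ρ g = ρ τ ^ j := by
    intro ρ hρ
    have : ρ g * ρ (g⁻¹ * τ ^ j) = ρ τ ^ j := by
      rw [← map_mul, mul_inv_cancel_left, map_pow]
    rw [hρ, mul_one] at this
    exact this
  rw [key ρ₁ (MonoidHom.mem_ker.mp hj.1), key ρ₂ (MonoidHom.mem_ker.mp hj.2)]
  exact consumer_charpoly_pow_eq _ _ (h ℓ hℓ hℓS A τ hA hτ) j

end Fermat.Agent.FrobDensity
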