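import Fermat.Agent.Lib.FrobDensity.Final
import Fermat.Agent.Lib.FrobDensity.Consumer
import Fermat.Agent.F3.FrobDensityLite

set_option autoImplicit false

/-!
# Frobenius density: unconditional consumer forms

* `frobenius_density_open`: open normal subgroup form;
* `charpoly_eq_of_frobenius`: two `2 × 2` representations with open kernels whose characteristic
  polynomials agree at the Frobenius elements outside a finite set of primes have the same
  characteristic polynomials everywhere;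
* `frobDensityLite`: the interface proposition `F3.FrobDensityLite`.
-/

namespace Fermat.Agent.FrobDensity

theorem frobeniusDensityStatement : FrobeniusDensityStatement :=
  fun L _ _ g S => frobenius_density L g S

theorem frobenius_density_open
    (U : Subgroup (AlgebraicClosure ℚ ≃ₐ[ℚ] AlgebraicClosure ℚ)) [U.Normal]
    (hU : IsOpen (U : Set (AlgebraicClosure ℚ ≃ₐ[ℚ] AlgebraicClosure ℚ)))
    (g : AlgebraicClosure ℚ ≃ₐ[ℚ] AlgebraicClosure ℚ) (S : Finset ℕ) :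
    ∃ (ℓ : ℕ) (A : ValuationSubring (AlgebraicClosure ℚ))
      (τ : AlgebraicClosure ℚ ≃ₐ[ℚ] AlgebraicClosure ℚ) (k j : ℕ),
      ℓ.Prime ∧ ℓ ∉ S ∧ A.LiesOverPrime ℓ ∧ A.IsFrobeniusAt τ ℓ ∧ τ⁻¹ * g ^ k ∈ U ∧
        g⁻¹ * τ ^ j ∈ U :=
  frobenius_density_open_of frobeniusDensityStatement U hU g S

theorem charpoly_eq_of_frobenius {R : Type*} [CommRing R]
    (ρ₁ ρ₂ : (AlgebraicClosure ℚ ≃ₐ[ℚ] AlgebraicClosure ℚ) →* Matrix (Fin 2) (Fin 2) R)
    (h₁ : IsOpen {σ : AlgebraicClosure ℚ ≃ₐ[ℚ] AlgebraicClosure ℚ | ρ₁ σ = 1})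
    (h₂ : IsOpen {σ : AlgebraicClosure ℚ ≃ₐ[ℚ] AlgebraicClosure ℚ | ρ₂ σ = 1}) (S : Finset ℕ)
    (h : ∀ ℓ : ℕ, ℓ.Prime → ℓ ∉ S → ∀ (A : ValuationSubring (AlgebraicClosure ℚ))
      (τ : AlgebraicClosure ℚ ≃ₐ[ℚ] AlgebraicClosure ℚ),
      A.LiesOverPrime ℓ → A.IsFrobeniusAt τ ℓ → (ρ₁ τ).charpoly = (ρ₂ τ).charpoly)
    (g : AlgebraicClosure ℚ ≃ₐ[ℚ] AlgebraicClosure ℚ) :
    (ρ₁ g).charpoly = (ρ₂ g).charpoly :=
  charpoly_eq_of_frobenius_of frobeniusDensityStatement ρ₁ ρ₂ h₁ h₂ S h g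

theorem frobDensityLite : Fermat.Agent.F3.FrobDensityLite :=
  Fermat.Agent.F3.frobDensityLite_of fun L _ _ g S => frobenius_density L g S

end Fermat.Agent.FrobDensity
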